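import Fermat.Agent.Root.Defs
import Fermat.Agent.EC.Frobenius.DetCyclotomic
import Fermat.Prelude.Def_FLTPrelim_Modularity
import Fermat.Prelude.Def_WeierstrassCurve_ConductorLevel
import Fermat.Prelude.Def_WeierstrassCurve_Mlc1RowStatement

/-!
# Frozen statements that follow from modularity of every semistable curve

The chain enters as a hypothesis; with it filled in each theorem has the frozen type.
-/

set_option autoImplicit false

noncomputable section

open WeierstrassCurve

namespace Fermat.Agent.Root

/-- Every semistable curve is modular at its conductor level. -/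
def SemistableModular : Prop :=
  ∀ W : WeierstrassCurve ℤ, Semistable W → W.IsModularModelOfLevel W.conductorLevel

namespace Wrappers

/-- S60. -/
theorem isModular_semistable (h : SemistableModular) (W : WeierstrassCurve ℤ) (hΔ : W.Δ ≠ 0)
    (hW : W.IsSemistableModel) : (W.map (Int.castRingHom ℚ)).IsModular :=
  ⟨W, EC.Frobenius.isIntegralModelOf_map W, W.conductorLevel, W.conductorLevel_pos,
    h W ⟨hΔ, hW⟩⟩

/-- S59: the residual hypotheses are not needed. -/
theorem modularModel_exactConductorLevel (h : SemistableModular) (W : WeierstrassCurve ℤ)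
    (hΔ : W.Δ ≠ 0) (hW : W.IsSemistableModel) : Mlc1IsModularModelOfExactConductorLevel W :=
  ⟨W.conductorLevel, W.conductorLevel_pos, W.squarefree_conductorLevel,
    fun _ hq => W.prime_dvd_conductorLevel_iff hΔ hq, h W ⟨hΔ, hW⟩⟩

end Wrappers

end Fermat.Agent.Root
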