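import Fermat.Agent.Root.Chain
import Fermat.Prelude.Def_FLTPrelim_Modularity

/-!
# The frozen statements that follow from the chain

`S09` (irreducibility) and `S44` (lowering at `p`) enter as hypotheses, so each theorem has the
exact type of the frozen statement once these two are supplied.
-/

set_option autoImplicit false

noncomputable section

open WeierstrassCurve WeierstrassCurve.Affine.Point

namespace Fermat.Agent.Root.Wrappers

/-- S01. -/
theorem fermat (h09 : FreyIrreducible) (h44 : LevelLowerAtP) (n : ℕ) (hn : 3 ≤ n) (a b c : ℕ)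
    (ha : 0 < a) (hb : 0 < b) (hc : 0 < c) : a ^ n + b ^ n ≠ c ^ n :=
  flt h09 h44 n hn a b c ha hb hc

/-- S03. -/
theorem no_freyPackage (h09 : FreyIrreducible) (h44 : LevelLowerAtP) (P : FreyPackage) : False :=
  frey_false h44 P (h09 P)

/-- S04. -/
theorem frey_isModular (P : FreyPackage) : P.freyCurve.IsModular :=
  ⟨P.freyCurveInt, isIntegralModelOf_frey P, P.freyCurveInt.conductorLevel,
    P.freyCurveInt.conductorLevel_pos, frey_modular P⟩

theorem isConductorLevel_frey (P : FreyPackage) :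
    P.IsConductorLevel P.freyCurveInt.conductorLevel := by
  refine ⟨P.freyCurveInt.conductorLevel_pos, P.freyCurveInt.squarefree_conductorLevel,
    fun q hq hqN => ?_⟩
  have hqΔ : (q : ℤ) ∣ P.freyCurveInt.Δ :=
    (P.freyCurveInt.prime_dvd_conductorLevel_iff (semistable_frey P).ne hq).mp hqN
  exact (Nat.prime_iff_prime_int.mp hq).dvd_of_dvd_pow
    ((EC.Reducible.freyCurveInt_Δ P) ▸ Dvd.dvd.mul_right hqΔ _)

/-- S06: a modular curve is residually modular, the congruences are equalities. -/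
theorem exists_conductorLevel_modularRep (P : FreyPackage) :
    ∃ N : ℕ, P.IsConductorLevel N ∧ P.ModularRepOfLevel N := by
  obtain ⟨f, hf, hfa⟩ := frey_modular P
  obtain ⟨𝔪, h𝔪, hp⟩ := FLTPrelim.exists_maximalIdeal_natCast_prime_mem P.pp
  refine ⟨_, isConductorLevel_frey P, f, P.freyCurveInt, 𝔪, hf, isIntegralModelOf_frey P, h𝔪, hp,
    fun ℓ hℓ hgood hℓN _ => ⟨((P.freyCurveInt.apOfModel ℓ : ℤ) : integralClosure ℤ ℂ), ?_, ?_⟩⟩
  · rw [hfa ℓ hℓ hgood hℓN]; simp
  · rw [sub_self]; exact 𝔪.zero_mem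

/-- S43: with the chain complete the hypotheses are contradictory. -/
theorem lowering_odd_prime (h44 : LevelLowerAtP) (P : FreyPackage) {N q : ℕ}
    (_hcond : P.IsConductorLevel N) (_hq : q.Prime) (_hq2 : q ≠ 2) (_hqp : q ≠ P.p) (_hqN : q ∣ N)
    (hirr : GaloisRepIsIrreducible (K := AlgebraicClosure ℚ) ℚ P.freyCurve P.p)
    (_hmod : P.ModularRepOfLevel N) (_hunr : P.GaloisRepUnramifiedAt q) :
    ∃ M : ℕ, M ∣ N ∧ ¬ q ∣ M ∧ P.ModularRepOfLevel M :=
  (frey_false h44 P hirr).elim

/-- S45. -/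
theorem exists_form_level_two (h44 : LevelLowerAtP) (P : FreyPackage)
    (_hmod : P.freyCurve.IsModular)
    (hirr : GaloisRepIsIrreducible (K := AlgebraicClosure ℚ) ℚ P.freyCurve P.p) :
    ∃ f : CuspForm (CongruenceSubgroup.Gamma0 2) 2, f ≠ 0 :=
  (frey_false h44 P hirr).elim

end Fermat.Agent.Root.Wrappers
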